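import Fermat.Agent.S14.Jacobi

set_option autoImplicit false
set_option linter.unusedSectionVars false
set_option linter.style.haveILetI false

/-!
# S14 / CORE4: degrees of places of `ℚ(ζ_p)`; a functional of type `ω⁻¹` on the class group vanishes
-/

namespace Fermat.Agent.S14

open IsDedekindDomain NumberField

variable {p : ℕ} [Fact p.Prime] {K : Type*} [Field K] [NumberField K]
  [IsCyclotomicExtension {p} ℚ K]

theorem exists_place_above {F : Type*} [Field F] [NumberField F] (q : ℕ) (hq : q.Prime) :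
    ∃ v : Pl F, Above q v := by
  have hprime : (Ideal.span {(q : ℤ)}).IsPrime :=
    Ideal.isPrime_of_prime (Ideal.prime_span_singleton_iff.mpr (Nat.prime_iff_prime_int.mp hq))
  obtain ⟨⟨P, hP, hlies⟩⟩ := (Ideal.span {(q : ℤ)}).nonempty_primesOver (S := 𝓞 F)
  have hqP : (q : 𝓞 F) ∈ P := by
    have h1 : (q : ℤ) ∈ Ideal.under ℤ P := by
      rw [← hlies.over]; exact Ideal.mem_span_singleton_self _
    rw [Ideal.under_def, Ideal.mem_comap] at h1
    simpa using h1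
  refine ⟨⟨P, hP, ?_⟩, hqP⟩
  rintro rfl
  have : (q : 𝓞 F) = 0 := by simpa using hqP
  exact hq.ne_zero (by exact_mod_cast this)

/-- Existence of the automorphism `ζ ↦ ζ ^ k`. -/
theorem exists_sigma {ζ : K} (hζ : IsPrimitiveRoot ζ p) (k : ℕ) (hk : ¬ p ∣ k) :
    ∃ σ : K ≃ₐ[ℚ] K, σ ζ = ζ ^ k := by
  have hpp : p.Prime := Fact.out
  have h1 : 1 ≤ k % p := by
    rcases Nat.eq_zero_or_pos (k % p) with h | h
    · exact absurd (Nat.dvd_of_mod_eq_zero h) hk
    · exact h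
  obtain ⟨σ, hσ⟩ := Jac.exists_algEquiv_pow hζ h1 (Nat.mod_lt _ hpp.pos)
  exact ⟨σ, by rw [hσ, ← pow_eq_pow_mod k hζ.pow_eq_one]⟩

/-- Every automorphism is `ζ ↦ ζ ^ k` with `0 < k < p`. -/
theorem exists_exponent {ζ : K} (hζ : IsPrimitiveRoot ζ p) (σ : K ≃ₐ[ℚ] K) :
    ∃ k : ℕ, 0 < k ∧ k < p ∧ σ ζ = ζ ^ k :=
  Jac.exists_pow_eq_apply hζ σ

theorem sigma_ext {ζ : K} (hζ : IsPrimitiveRoot ζ p) {σ τ : K ≃ₐ[ℚ] K} (h : σ ζ = τ ζ) :
    σ = τ :=
  Jac.algEquiv_ext_of_apply_zeta hζ h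

/-- The Frobenius congruence: if `σ ζ = ζ ^ q`, `q` prime, then `σ x ≡ x ^ q mod q`. -/
theorem sigma_sub_pow_mem {ζ : K} (hζ : IsPrimitiveRoot ζ p) (q : ℕ) (hq : q.Prime)
    (σ : K ≃ₐ[ℚ] K) (hσ : σ ζ = ζ ^ q) (x : 𝓞 K) :
    RingOfIntegers.mapRingEquiv (σ : K ≃+* K) x - x ^ q ∈ Ideal.span {(q : 𝓞 K)} := by
  have hpp : p.Prime := Fact.out
  haveI : NeZero p := ⟨hpp.ne_zero⟩
  haveI : Fact q.Prime := ⟨hq⟩
  have htop : Algebra.adjoin ℤ {hζ.toInteger} = ⊤ :=
    IsCyclotomicExtension.Rat.adjoin_singleton_eq_top hζ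
  have hx : x ∈ Algebra.adjoin ℤ {hζ.toInteger} := by rw [htop]; trivial
  set I : Ideal (𝓞 K) := Ideal.span {(q : 𝓞 K)} with hI
  have hqI : (q : 𝓞 K) ∈ I := Ideal.mem_span_singleton_self _
  set f := RingOfIntegers.mapRingEquiv (σ : K ≃+* K) with hf
  induction hx using Algebra.adjoin_induction with
  | mem y hy =>
    rw [Set.mem_singleton_iff] at hy
    subst hy
    have : f hζ.toInteger = hζ.toInteger ^ q := by
      apply RingOfIntegers.ext
      have h0 : ((hζ.toInteger : 𝓞 K) : K) = ζ := rfl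
      simp only [f, RingOfIntegers.mapRingEquiv_apply, map_pow]
      exact hσ
    rw [this, sub_self]
    exact I.zero_mem
  | algebraMap r =>
    have h1 : f (algebraMap ℤ (𝓞 K) r) = algebraMap ℤ (𝓞 K) r := by simp
    rw [h1, ← map_pow, ← map_sub]
    have h2 : (q : ℤ) ∣ r - r ^ q := by
      rw [← ZMod.intCast_zmod_eq_zero_iff_dvd]
      push_cast
      rw [ZMod.pow_card, sub_self]
    obtain ⟨c, hc⟩ := h2
    rw [hc, map_mul]
    exact I.mul_mem_right _ (by simpa using hqI)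
  | add y z _ _ hy hz =>
    obtain ⟨r, hr⟩ := exists_add_pow_prime_eq hq y z
    rw [map_add, hr]
    have : f y + f z - (y ^ q + z ^ q + (q : 𝓞 K) * y * z * r)
        = (f y - y ^ q) + (f z - z ^ q) - q * (y * z * r) := by
      ring
    rw [this]
    exact I.sub_mem (I.add_mem hy hz) (I.mul_mem_right _ hqI)
  | mul y z _ _ hy hz =>
    rw [map_mul, mul_pow]
    have : f y * f z - y ^ q * z ^ q = (f y - y ^ q) * f z + y ^ q * (f z - z ^ q) := by ring
    rw [this]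
    exact I.add_mem (I.mul_mem_right _ hy) (I.mul_mem_left _ hz)

/-- The Frobenius at `q` fixes the places above `q`. -/
theorem sigmaPl_eq_self_of_above {ζ : K} (hζ : IsPrimitiveRoot ζ p) (q : ℕ) (hq : q.Prime)
    (σ : K ≃ₐ[ℚ] K) (hσ : σ ζ = ζ ^ q) (v : Pl K) (hv : Above q v) : sigmaPl σ v = v := by
  have hle : v.asIdeal ≤ (sigmaPl σ⁻¹ v).asIdeal := by
    intro x hx
    rw [Jac.sigmaPl_inv_asIdeal_comap, Ideal.mem_comap]
    have h1 := sigma_sub_pow_mem hζ q hq σ hσ x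
    have h2 : RingOfIntegers.mapRingEquiv (σ : K ≃+* K) x - x ^ q ∈ v.asIdeal :=
      (Ideal.span_singleton_le_iff_mem _ |>.mpr hv) h1
    have h3 : x ^ q ∈ v.asIdeal := Ideal.pow_mem_of_mem _ hx _ hq.pos
    have := v.asIdeal.add_mem h2 h3
    simpa using this
  have heq : v.asIdeal = (sigmaPl σ⁻¹ v).asIdeal :=
    v.isMaximal.eq_of_le (sigmaPl σ⁻¹ v).isPrime.ne_top hle
  have heq' : v = sigmaPl σ⁻¹ v := HeightOneSpectrum.ext heq
  calc sigmaPl σ v = sigmaPl σ (sigmaPl σ⁻¹ v) := by rw [← heq']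
    _ = sigmaPl (σ * σ⁻¹) v := (sigmaPl_mul _ _ _).symm
    _ = v := by rw [mul_inv_cancel, sigmaPl_one]

/-- Places above `q ≡ 1 mod p` have degree one. -/
theorem absNorm_eq_of_mod_eq_one (q : ℕ) (hq : q.Prime) (hq1 : q % p = 1) (v : Pl K)
    (hv : Above q v) : Ideal.absNorm v.asIdeal = q := by
  have hpp : p.Prime := Fact.out
  haveI : NeZero p := ⟨hpp.ne_zero⟩
  haveI : Fact q.Prime := ⟨hq⟩
  haveI := (above_iff_liesOver hq v).mp hv
  haveI := v.isPrime
  haveI := v.isMaximal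
  have hmax : (Ideal.span {(q : ℤ)}).IsMaximal :=
    (Ideal.isPrime_of_prime (Ideal.prime_span_singleton_iff.mpr
      (Nat.prime_iff_prime_int.mp hq))).isMaximal (by simp [hq.ne_zero])
  have hqp : ¬ q ∣ p := by
    intro h
    have := (Nat.prime_dvd_prime_iff_eq hq hpp).mp h
    subst this
    rw [Nat.mod_self] at hq1
    exact absurd hq1 (by norm_num)
  have h1 := IsCyclotomicExtension.Rat.inertiaDeg_eq_of_not_dvd q K v.asIdeal hqp
  have h2 : ((q : ℕ) : ZMod p) = 1 := by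
    have : ((q % p : ℕ) : ZMod p) = (q : ZMod p) := ZMod.natCast_mod q p
    rw [← this, hq1, Nat.cast_one]
  rw [h2, orderOf_one] at h1
  rw [Ideal.absNorm_eq_pow_inertiaDeg' v.asIdeal hq,
    Ideal.inertiaDeg'_eq_inertiaDeg (Ideal.span {(q : ℤ)}) v.asIdeal, h1, pow_one]

/-- `∑_{0 < a < p/2} a ≠ 0` in `ZMod p`. -/
theorem sum_half_ne_zero (hp : p ≠ 2) :
    (∑ a ∈ Finset.range p, if 2 * a < p then (a : ZMod p) else 0) ≠ 0 := by
  have hpp : p.Prime := Fact.out
  obtain ⟨m, hm⟩ := hpp.odd_of_ne_two hp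
  have h1 : (∑ a ∈ Finset.range p, if 2 * a < p then (a : ZMod p) else 0)
      = ((∑ a ∈ Finset.range (m + 1), a : ℕ) : ZMod p) := by
    rw [← Finset.sum_filter, Nat.cast_sum]
    apply Finset.sum_congr _ (fun _ _ => rfl)
    ext a
    simp only [Finset.mem_filter, Finset.mem_range]
    omega
  rw [h1]
  intro h0
  rw [ZMod.natCast_eq_zero_iff] at h0
  have h2 := Finset.sum_range_id_mul_two (m + 1)
  have h3 : p ∣ (m + 1) * m := by
    have : p ∣ (∑ a ∈ Finset.range (m + 1), a) * 2 := Dvd.dvd.mul_right h0 2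
    rw [h2] at this
    simpa using this
  have hm0 : 0 < m := by
    have := hpp.two_le
    omega
  rcases (Nat.Prime.dvd_mul hpp).mp h3 with h | h
  · have := Nat.le_of_dvd (by omega) h
    omega
  · have := Nat.le_of_dvd hm0 h
    omega

/-- A function on places of "type `ω⁻¹`" which kills all principal divisors prime to `St ∪ {λ}`
vanishes. (Jacobi sums.) -/
theorem eq_zero_of_type (hp : p ≠ 2) {ζ : K} (hζ : IsPrimitiveRoot ζ p) (St : Finset (Pl K))
    (hstab : ∀ σ : K ≃ₐ[ℚ] K, ∀ v ∈ St, sigmaPl σ v ∈ St) (m : Pl K → ZMod p)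
    (hmSt : ∀ v ∈ St, m v = 0) (hmp : ∀ v, Above p v → m v = 0)
    (htype : ∀ (σ : K ≃ₐ[ℚ] K) (k : ℕ), σ ζ = ζ ^ k → ∀ v, (k : ZMod p) * m (sigmaPl σ v) = m v)
    (hpair : ∀ γ : K, γ ≠ 0 → (∀ v ∈ St, (p : ℤ) ∣ ord v γ) →
      (∀ v, Above p v → (p : ℤ) ∣ ord v γ) → pair m γ = 0) : m = 0 := by
  classical
  have hpp : p.Prime := Fact.out
  haveI : NeZero p := ⟨hpp.ne_zero⟩
  haveI : IsGalois ℚ K := IsCyclotomicExtension.isGalois {p} ℚ K
  funext v
  rw [Pi.zero_apply]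
  obtain ⟨q, hq, hv⟩ := exists_above v
  by_cases hqp : q = p
  · exact hmp v (hqp ▸ hv)
  have hpq : ¬ p ∣ q := fun h => hqp ((Nat.prime_dvd_prime_iff_eq hpp hq).mp h).symm
  by_cases hq1 : q % p = 1
  swap
  · obtain ⟨σ, hσ⟩ := exists_sigma hζ q hpq
    have h1 := htype σ q hσ v
    rw [sigmaPl_eq_self_of_above hζ q hq σ hσ v hv] at h1
    have h2 : ((q : ZMod p) - 1) * m v = 0 := by rw [sub_mul, h1, one_mul, sub_self]
    rcases mul_eq_zero.mp h2 with h | h
    · exfalso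
      apply hq1
      have h3 : (q : ZMod p) = ((1 : ℕ) : ZMod p) := by rw [Nat.cast_one]; exact sub_eq_zero.mp h
      have h4 := (ZMod.natCast_eq_natCast_iff' q 1 p).mp h3
      rw [h4, Nat.mod_eq_of_lt hpp.one_lt]
    · exact h
  have hN : Ideal.absNorm v.asIdeal = q := absNorm_eq_of_mod_eq_one q hq hq1 v hv
  by_cases hvSt : v ∈ St
  · exact hmSt v hvSt
  obtain ⟨J, hJ0, hJout, hJ⟩ := exists_jacobi hp hζ v q hq hqp hN
  have hzero : pair m J = 0 := by
    apply hpair J hJ0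
    · intro w hw
      rw [hJout w ?_]
      · exact dvd_zero _
      · intro hwq
        obtain ⟨σ, hσ⟩ := exists_sigmaPl_eq hq hwq hv
        exact hvSt (hσ ▸ hstab σ w hw)
    · intro w hw
      rw [hJout w ?_]
      · exact dvd_zero _
      · intro hwq
        exact hqp (above_unique hq hpp hwq hw)
  -- exponents
  choose a ha0 hap ha using exists_exponent hζ
  have hainj : Function.Injective a := by
    intro σ τ h
    exact sigma_ext hζ (by rw [ha σ, ha τ, h])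
  have hinj : Function.Injective fun σ : K ≃ₐ[ℚ] K => sigmaPl σ⁻¹ v := by
    intro σ τ h
    exact inv_injective (sigmaPl_injective_of_degree_one v q hq hqp hN h)
  have hsum := pair_eq_sum m J (Finset.univ.image fun σ : K ≃ₐ[ℚ] K => sigmaPl σ⁻¹ v) (by
    intro w hw
    left
    apply hJout
    intro hwq
    obtain ⟨σ, hσ⟩ := exists_sigmaPl_eq hq hv hwq
    apply hw
    rw [Finset.mem_image]
    exact ⟨σ⁻¹, Finset.mem_univ _, by rw [inv_inv, hσ]⟩)
  rw [hzero, Finset.sum_image (fun σ _ τ _ h => hinj h)] at hsum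
  have hterm : ∀ σ : K ≃ₐ[ℚ] K,
      ((ord (sigmaPl σ⁻¹ v) J : ℤ) : ZMod p) * m (sigmaPl σ⁻¹ v)
        = (if 2 * a σ < p then ((a σ : ℕ) : ZMod p) else 0) * m v := by
    intro σ
    rw [hJ σ (a σ) (ha0 σ) (hap σ) (ha σ)]
    have h1 := htype σ (a σ) (ha σ) (sigmaPl σ⁻¹ v)
    rw [← sigmaPl_mul, mul_inv_cancel, sigmaPl_one] at h1
    rw [← h1]
    split_ifs <;> simp
  rw [Finset.sum_congr rfl (fun σ _ => hterm σ), ← Finset.sum_mul] at hsum
  have hre : (∑ σ : K ≃ₐ[ℚ] K, if 2 * a σ < p then ((a σ : ℕ) : ZMod p) else 0)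
      = ∑ k ∈ Finset.range p, if 2 * k < p then (k : ZMod p) else 0 := by
    rw [← Finset.sum_image (f := fun k : ℕ => if 2 * k < p then (k : ZMod p) else 0)
      (fun σ _ τ _ h => hainj h)]
    apply Finset.sum_subset
    · intro k hk
      rw [Finset.mem_image] at hk
      obtain ⟨σ, -, rfl⟩ := hk
      exact Finset.mem_range.mpr (hap σ)
    · intro k hk hk'
      rw [Finset.mem_range] at hk
      rcases Nat.eq_zero_or_pos k with h0 | h0
      · simp [h0]
      · exfalso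
        apply hk'
        obtain ⟨σ, hσ⟩ := exists_sigma hζ k (Nat.not_dvd_of_pos_of_lt h0 hk)
        rw [Finset.mem_image]
        refine ⟨σ, Finset.mem_univ _, ?_⟩
        exact hζ.pow_inj (hap σ) hk (by rw [← ha σ, hσ])
  rw [hre] at hsum
  rcases mul_eq_zero.mp hsum.symm with h | h
  · exact absurd h (sum_half_ne_zero hp)
  · exact h

end Fermat.Agent.S14
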