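import Fermat.Agent.S14.Core.Type
import Fermat.Agent.S14.Core.Deg
import Fermat.Agent.S14.Gauss
import Fermat.Agent.S14.Gauss.Dirichlet

set_option autoImplicit false
set_option linter.unusedSectionVars false

/-!
# S14 / CORE5: the core theorem
-/

namespace Fermat.Agent.S14

open IsDedekindDomain NumberField

variable {p : ℕ} [Fact p.Prime] {K : Type*} [Field K] [NumberField K]
  [IsCyclotomicExtension {p} ℚ K]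

namespace CtxAux

theorem rho_eq_offS_kap {ζ : K} {St : Finset (Pl K)} {r : ℕ} (hr : r.Prime) (Φ : K)
    (χ : (ZMod r)ˣ →* Multiplicative (ZMod p)) (hincl : ∀ v : Pl K, Above r v → v ∈ St)
    (hrs : ∀ (v : Pl K), ¬ Above p v → ¬ Above r v →
      ∀ hc : (Ideal.absNorm v.asIdeal).Coprime r,
        rs p ζ v Φ = Multiplicative.toAdd (χ (ZMod.unitOfCoprime _ hc))) :
    rho (p := p) ζ St Φ = offS p St (kap χ) := by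
  funext v
  unfold rho offS
  split_ifs with h
  · rfl
  · rw [not_or] at h
    have hvr : ¬ Above r v := fun h' => h.1 (hincl v h')
    have hc : (Ideal.absNorm v.asIdeal).Coprime r := (coprime_absNorm_iff hr v).2 hvr
    show rs p ζ v Φ = kap χ v
    rw [hrs v h.2 hvr hc, kap, dif_pos ⟨hc, h.2⟩]

theorem mem_sigmaPl_iff {St : Finset (Pl K)}
    (hstab : ∀ σ : K ≃ₐ[ℚ] K, ∀ v ∈ St, sigmaPl σ v ∈ St) (σ : K ≃ₐ[ℚ] K) (v : Pl K) :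
    sigmaPl σ v ∈ St ↔ v ∈ St := by
  refine ⟨fun h => ?_, hstab σ v⟩
  have := hstab σ⁻¹ _ h
  rwa [← sigmaPl_mul, inv_mul_cancel, sigmaPl_one] at this

theorem offS_kap_sigmaPl {St : Finset (Pl K)}
    (hstab : ∀ σ : K ≃ₐ[ℚ] K, ∀ v ∈ St, sigmaPl σ v ∈ St) {r : ℕ}
    (χ : (ZMod r)ˣ →* Multiplicative (ZMod p)) (σ : K ≃ₐ[ℚ] K) (v : Pl K) :
    offS p St (kap χ) (sigmaPl σ v) = offS p St (kap χ) v := by
  unfold offS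
  have h1 : (sigmaPl σ v ∈ St ∨ Above p (sigmaPl σ v)) ↔ (v ∈ St ∨ Above p v) := by
    rw [mem_sigmaPl_iff hstab, above_sigmaPl]
  by_cases h : v ∈ St ∨ Above p v
  · rw [if_pos h, if_pos (h1.2 h)]
  · rw [if_neg h, if_neg (mt h1.1 h), kap_sigmaPl]

theorem pair_offS_kap (hp : p ≠ 2) {St : Finset (Pl K)} {r : ℕ} (hr : r.Prime) (hrp : r ≠ p)
    (χ : (ZMod r)ˣ →* Multiplicative (ZMod p)) (hincl : ∀ v : Pl K, Above r v → v ∈ St)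
    (γ : K) (hγ : γ ≠ 0) (h1 : ∀ v ∈ St, LocPow p v 1 γ)
    (h2 : ∀ v, Above p v → LocPow p v p γ) : pair (offS p St (kap χ)) γ = 0 := by
  have hp1 : 1 ≤ p := (Fact.out : p.Prime).one_le
  rw [pair_offS St _ hγ (fun v hv => (h1 v hv).dvd_ord le_rfl) fun v hv => (h2 v hv).dvd_ord hp1]
  exact pair_kap_eq_zero hp hr hrp χ γ hγ (fun v hv => h1 v (hincl v hv))
    fun v hv => (h2 v hv).dvd_ord hp1

/-- If `x` is not a `p`-th power and `x ^ e` is, then `p ∣ e`. -/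
theorem dvd_of_isPPow_zpow {x : K} (hx0 : x ≠ 0) (hx : ¬ IsPPow p x) {e : ℤ}
    (h : IsPPow p (x ^ e)) : (p : ℤ) ∣ e := by
  have := (indepModP_single hx0 hx).2 ![e] (by simpa using h) 0
  simpa using this

theorem dvd_of_sep {ζ : K} (hζ : IsPrimitiveRoot ζ p) {Φ₁ Φ₂ : K} (hΦ₁0 : Φ₁ ≠ 0) (hΦ₂0 : Φ₂ ≠ 0)
    {e₁ e₂ : ℤ} (h : IsPPow p (Φ₁ ^ e₁ * Φ₂ ^ e₂)) {v : Pl K} (hv : ¬ Above p v)
    (h1 : ord v Φ₁ = 0) (h2 : ord v Φ₂ = 0) (h3 : rs p ζ v Φ₁ ≠ 0) (h4 : rs p ζ v Φ₂ = 0) :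
    (p : ℤ) ∣ e₁ := by
  have hY0 : Φ₁ ^ e₁ * Φ₂ ^ e₂ ≠ 0 := mul_ne_zero (zpow_ne_zero _ hΦ₁0) (zpow_ne_zero _ hΦ₂0)
  have o1 : ord v (Φ₁ ^ e₁) = 0 := by rw [ord_zpow, h1, mul_zero]
  have o2 : ord v (Φ₂ ^ e₂) = 0 := by rw [ord_zpow, h2, mul_zero]
  have hYo : ord v (Φ₁ ^ e₁ * Φ₂ ^ e₂) = 0 := by
    rw [ord_mul v (zpow_ne_zero _ hΦ₁0) (zpow_ne_zero _ hΦ₂0), o1, o2, add_zero]
  have h5 : rs p ζ v (Φ₁ ^ e₁ * Φ₂ ^ e₂) = 0 :=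
    (rs_eq_zero_iff hζ hv hY0 hYo).2 (locPow_of_isPPow v 1 hY0 h)
  rw [rs_mul hζ hv (zpow_ne_zero _ hΦ₁0) o1 (zpow_ne_zero _ hΦ₂0) o2, rs_zpow hζ hv hΦ₁0 h1,
    rs_zpow hζ hv hΦ₂0 h2, h4, mul_zero, add_zero] at h5
  rcases mul_eq_zero.1 h5 with h6 | h6
  · exact (ZMod.intCast_zmod_eq_zero_iff_dvd _ _).1 h6
  · exact absurd h6 h3

theorem indep_three (hp : p ≠ 2) {ζ : K} (hζ : IsPrimitiveRoot ζ p) {α Φ₁ Φ₂ : K}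
    (hα0 : α ≠ 0) (hα : ¬ IsPPow p α)
    (hαtype : ∀ (σ : K ≃ₐ[ℚ] K) (k : ℕ), σ ζ = ζ ^ k → IsPPow p (σ α / α ^ (k ^ 2)))
    (hΦ₁0 : Φ₁ ≠ 0) (hΦ₂0 : Φ₂ ≠ 0)
    (hΦ₁type : ∀ (σ : K ≃ₐ[ℚ] K) (k : ℕ), σ ζ = ζ ^ k → IsPPow p (σ Φ₁ / Φ₁ ^ k))
    (hΦ₂type : ∀ (σ : K ≃ₐ[ℚ] K) (k : ℕ), σ ζ = ζ ^ k → IsPPow p (σ Φ₂ / Φ₂ ^ k))
    (hsep₁ : ∃ v : Pl K, ¬ Above p v ∧ ord v Φ₁ = 0 ∧ ord v Φ₂ = 0 ∧ rs p ζ v Φ₁ ≠ 0 ∧
      rs p ζ v Φ₂ = 0)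
    (hsep₂ : ∃ v : Pl K, ¬ Above p v ∧ ord v Φ₁ = 0 ∧ ord v Φ₂ = 0 ∧ rs p ζ v Φ₂ ≠ 0 ∧
      rs p ζ v Φ₁ = 0) : IndepModP p ![α, Φ₁, Φ₂] := by
  have hpp : p.Prime := Fact.out
  refine ⟨fun i => by fin_cases i <;> simpa, fun e he => ?_⟩
  rw [Fin.prod_univ_three] at he
  simp only [Matrix.cons_val_zero, Matrix.cons_val_one, Matrix.cons_val] at he
  set e₀ := e 0
  set e₁ := e 1
  set e₂ := e 2
  have h2 : ¬ p ∣ 2 := fun h => hp ((Nat.prime_dvd_prime_iff_eq hpp Nat.prime_two).1 h)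
  obtain ⟨σ, hσ⟩ := exists_sigma hζ 2 h2
  have hA := hαtype σ 2 hσ
  have hB₁ := hΦ₁type σ 2 hσ
  have hB₂ := hΦ₂type σ 2 hσ
  have hσX := (isPPow_sigma (p := p) σ (α ^ e₀ * Φ₁ ^ e₁ * Φ₂ ^ e₂)).2 he
  have key : α ^ (2 * e₀) = σ (α ^ e₀ * Φ₁ ^ e₁ * Φ₂ ^ e₂) /
      ((σ α / α ^ (2 ^ 2)) ^ e₀ * (σ Φ₁ / Φ₁ ^ 2) ^ e₁ * (σ Φ₂ / Φ₂ ^ 2) ^ e₂ *
        (α ^ e₀ * Φ₁ ^ e₁ * Φ₂ ^ e₂) ^ 2) := by
    have s1 : σ α ≠ 0 := by simpa using hα0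
    have s2 : σ Φ₁ ≠ 0 := by simpa using hΦ₁0
    have s3 : σ Φ₂ ≠ 0 := by simpa using hΦ₂0
    rw [map_mul, map_mul, map_zpow₀, map_zpow₀, map_zpow₀, div_zpow, div_zpow, div_zpow]
    have t1 : (α ^ (2 ^ 2)) ^ e₀ = α ^ (4 * e₀) := by
      rw [← zpow_natCast, ← zpow_mul]; norm_num
    have t2 : (Φ₁ ^ 2) ^ e₁ = (Φ₁ ^ e₁) ^ 2 := by
      rw [← zpow_natCast, ← zpow_natCast, ← zpow_mul, ← zpow_mul, mul_comm]
    have t3 : (Φ₂ ^ 2) ^ e₂ = (Φ₂ ^ e₂) ^ 2 := by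
      rw [← zpow_natCast, ← zpow_natCast, ← zpow_mul, ← zpow_mul, mul_comm]
    have t4 : α ^ (4 * e₀) = α ^ (2 * e₀) * (α ^ e₀) ^ 2 := by
      rw [← zpow_natCast, ← zpow_mul, ← zpow_add₀ hα0]; congr 1; push_cast; ring
    rw [t1, t2, t3, t4]
    have u1 : α ^ (2 * e₀) ≠ 0 := zpow_ne_zero _ hα0
    have u2 : α ^ e₀ ≠ 0 := zpow_ne_zero _ hα0
    have u3 : Φ₁ ^ e₁ ≠ 0 := zpow_ne_zero _ hΦ₁0
    have u4 : Φ₂ ^ e₂ ≠ 0 := zpow_ne_zero _ hΦ₂0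
    have u5 : σ α ^ e₀ ≠ 0 := zpow_ne_zero _ s1
    have u6 : σ Φ₁ ^ e₁ ≠ 0 := zpow_ne_zero _ s2
    have u7 : σ Φ₂ ^ e₂ ≠ 0 := zpow_ne_zero _ s3
    field_simp
  have h3 : IsPPow p (α ^ (2 * e₀)) := by
    rw [key]
    exact hσX.div ((((hA.zpow e₀).mul (hB₁.zpow e₁)).mul (hB₂.zpow e₂)).mul (he.pow 2))
  have h4 : (p : ℤ) ∣ 2 * e₀ := dvd_of_isPPow_zpow hα0 hα h3
  have h5 : (p : ℤ) ∣ e₀ := by
    rcases (Nat.prime_iff_prime_int.mp hpp).dvd_or_dvd h4 with h | h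
    · exfalso; apply h2; exact_mod_cast h
    · exact h
  have h6 : IsPPow p (Φ₁ ^ e₁ * Φ₂ ^ e₂) := by
    have : Φ₁ ^ e₁ * Φ₂ ^ e₂ = (α ^ e₀ * Φ₁ ^ e₁ * Φ₂ ^ e₂) / α ^ e₀ := by
      have u2 : α ^ e₀ ≠ 0 := zpow_ne_zero _ hα0
      field_simp
    rw [this]
    exact he.div (isPPow_zpow_of_dvd α h5)
  obtain ⟨v, hv, o1, o2, r1, r2⟩ := hsep₁
  obtain ⟨w, hw, o1', o2', r1', r2'⟩ := hsep₂
  have h7 : (p : ℤ) ∣ e₁ := dvd_of_sep hζ hΦ₁0 hΦ₂0 h6 hv o1 o2 r1 r2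
  have h8 : (p : ℤ) ∣ e₂ := by
    rw [mul_comm] at h6
    exact dvd_of_sep hζ hΦ₂0 hΦ₁0 h6 hw o2' o1' r1' r2'
  intro i
  fin_cases i
  · exact h5
  · exact h7
  · exact h8

end CtxAux


/-- Construction of the crossing data. -/
theorem exists_ctx (hp : p ≠ 2) {ζ : K} (hζ : IsPrimitiveRoot ζ p) (α : K) (hα0 : α ≠ 0)
    (hα : ¬ IsPPow p α)
    (htype : ∀ (σ : K ≃ₐ[ℚ] K) (k : ℕ), σ ζ = ζ ^ k → IsPPow p (σ α / α ^ (k ^ 2)))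
    (hord : ∀ v : Pl K, ¬ Above p v → (p : ℤ) ∣ ord v α)
    (hprim : ∀ v : Pl K, Above p v → LocPow p v p α) :
    ∃ C : Ctx p K, C.ζ = ζ ∧ ∀ v, (p : ℤ) ∣ ord v C.α := by
  classical
  have hpp : p.Prime := Fact.out
  have hp1 : 1 ≤ p := hpp.one_le
  have hp0 : p ≠ 0 := hpp.ne_zero
  -- two auxiliary primes
  obtain ⟨r₁, hr₁, hr₁p, hr₁m⟩ := Nat.exists_prime_gt_modEq_one p hp0
  obtain ⟨r₂, hr₂, hr₂r, hr₂m⟩ := Nat.exists_prime_gt_modEq_one r₁ hp0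
  have hm1 : 1 % p = 1 := Nat.mod_eq_of_lt hpp.one_lt
  have hr₁1 : r₁ % p = 1 := by rw [← hm1]; exact hr₁m
  have hr₂1 : r₂ % p = 1 := by rw [← hm1]; exact hr₂m
  have hr₁ne : r₁ ≠ p := by omega
  have hr₂ne : r₂ ≠ p := by omega
  have hne : r₁ ≠ r₂ := by omega
  obtain ⟨Φ₁, χ₁, hΦ₁0, hχ₁, hΦ₁ord, hΦ₁type, hΦ₁prim, hΦ₁rs⟩ := exists_gauss hp hζ r₁ hr₁ hr₁1
  obtain ⟨Φ₂, χ₂, hΦ₂0, hχ₂, hΦ₂ord, hΦ₂type, hΦ₂prim, hΦ₂rs⟩ := exists_gauss hp hζ r₂ hr₂ hr₂1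
  obtain ⟨lam, hlam, hlamu, -⟩ := exists_lam hζ
  -- the set `St`
  obtain ⟨St, hinclSt, hdisj, hgen, hstab⟩ := exists_genCl
    ((finite_above (F := K) r₁ hr₁.ne_zero).toFinset ∪ (finite_above (F := K) r₂ hr₂.ne_zero).toFinset)
    {lam} (by
      intro σ v hv hmem
      rw [Finset.mem_singleton] at hmem
      have h1 : Above p v := by
        rw [← above_sigmaPl σ, hmem]; exact hlam
      rw [Finset.mem_union, Set.Finite.mem_toFinset, Set.Finite.mem_toFinset] at hv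
      rcases hv with hv | hv
      · exact hr₁ne (above_unique hr₁ hpp hv h1)
      · exact hr₂ne (above_unique hr₂ hpp hv h1))
  have hincl₁ : ∀ v : Pl K, Above r₁ v → v ∈ St := fun v hv => hinclSt (by
    rw [Finset.mem_union, Set.Finite.mem_toFinset]; exact Or.inl hv)
  have hincl₂ : ∀ v : Pl K, Above r₂ v → v ∈ St := fun v hv => hinclSt (by
    rw [Finset.mem_union, Set.Finite.mem_toFinset, Set.Finite.mem_toFinset]; exact Or.inr hv)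
  have hSt : ∀ v ∈ St, ¬ Above p v := by
    intro v hv habove
    have := hlamu v habove
    subst this
    exact (Finset.disjoint_left.1 hdisj hv) (Finset.mem_singleton_self _)
  -- modify `α` by a `p`-th power
  obtain ⟨z, hz0, hz1, hz2⟩ := hgen.exists_ord_eq (finite_support_ord hα0).toFinset
    (fun w => ord w α / p)
  have hzp0 : z ^ p ≠ 0 := pow_ne_zero _ hz0
  have hα'0 : α / z ^ p ≠ 0 := div_ne_zero hα0 hzp0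
  have hα'prim : ∀ v, Above p v → LocPow p v p (α / z ^ p) := fun v hv =>
    (hprim v hv).div hp1 (locPow_ppow v p hz0)
  have hα'ord : ∀ v, (p : ℤ) ∣ ord v (α / z ^ p) := by
    intro v
    rw [ord_div v hα0 hzp0, ord_pow]
    refine dvd_sub ?_ (dvd_mul_right _ _)
    by_cases hv : Above p v
    · exact (hprim v hv).dvd_ord hp1
    · exact hord v hv
  have hα'SU : IsSU0 p St (α / z ^ p) := by
    refine ⟨hα'0, fun v hvS hvp => ?_, fun v _ => hα'ord v⟩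
    rw [ord_div v hα0 hzp0, ord_pow]
    by_cases hs : v ∈ (finite_support_ord hα0).toFinset
    · rw [hz1 v hs hvS, Int.mul_ediv_cancel' (hord v hvp), sub_self]
    · rw [hz2 v hvS hs]
      rw [Set.Finite.mem_toFinset, Function.mem_support, not_not] at hs
      rw [hs]; simp
  have hα'np : ¬ IsPPow p (α / z ^ p) := by
    intro h
    apply hα
    have : α = α / z ^ p * z ^ p := by field_simp
    rw [this]
    exact h.mul (isPPow_pow_self z)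
  have hα'type : ∀ (σ : K ≃ₐ[ℚ] K) (k : ℕ), σ ζ = ζ ^ k →
      IsPPow p (σ (α / z ^ p) / (α / z ^ p) ^ (k ^ 2)) := by
    intro σ k hσ
    have hσz : σ z ≠ 0 := by simpa using hz0
    have : σ (α / z ^ p) / (α / z ^ p) ^ (k ^ 2) =
        σ α / α ^ (k ^ 2) * ((z ^ p) ^ (k ^ 2) / (σ z) ^ p) := by
      rw [map_div₀, map_pow, div_pow]
      field_simp
    rw [this]
    exact (htype σ k hσ).mul (((isPPow_pow_self z).pow _).div (isPPow_pow_self _))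
  have hΦ₁SU : IsSU0 p St Φ₁ :=
    ⟨hΦ₁0, fun v hvS _ => hΦ₁ord v fun h => hvS (hincl₁ v h),
      fun v hv => (hΦ₁prim v hv).dvd_ord hp1⟩
  have hΦ₂SU : IsSU0 p St Φ₂ :=
    ⟨hΦ₂0, fun v hvS _ => hΦ₂ord v fun h => hvS (hincl₂ v h),
      fun v hv => (hΦ₂prim v hv).dvd_ord hp1⟩
  have hρ₁ : rho (p := p) ζ St Φ₁ = offS p St (kap χ₁) :=
    CtxAux.rho_eq_offS_kap hr₁ Φ₁ χ₁ hincl₁ hΦ₁rs
  have hρ₂ : rho (p := p) ζ St Φ₂ = offS p St (kap χ₂) :=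
    CtxAux.rho_eq_offS_kap hr₂ Φ₂ χ₂ hincl₂ hΦ₂rs
  have hkap₁ : ∀ v : Pl K, ¬ Above p v → ¬ Above r₁ v → rs p ζ v Φ₁ = kap χ₁ v := by
    intro v hvp hvr
    have hc : (Ideal.absNorm v.asIdeal).Coprime r₁ := (coprime_absNorm_iff hr₁ v).2 hvr
    rw [hΦ₁rs v hvp hvr hc, kap, dif_pos ⟨hc, hvp⟩]
  have hkap₂ : ∀ v : Pl K, ¬ Above p v → ¬ Above r₂ v → rs p ζ v Φ₂ = kap χ₂ v := by
    intro v hvp hvr
    have hc : (Ideal.absNorm v.asIdeal).Coprime r₂ := (coprime_absNorm_iff hr₂ v).2 hvr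
    rw [hΦ₂rs v hvp hvr hc, kap, dif_pos ⟨hc, hvp⟩]
  have hind : IndepModP p ![α / z ^ p, Φ₁, Φ₂] := by
    refine CtxAux.indep_three hp hζ hα'0 hα'np hα'type hΦ₁0 hΦ₂0 hΦ₁type hΦ₂type ?_ ?_
    · obtain ⟨v, -, hvp, hv1, hv2, hk1, hk2⟩ :=
        exists_place_kap (K := K) hr₁ hr₂ hne hr₁ne hr₂ne χ₁ hχ₁ χ₂ St
      exact ⟨v, hvp, hΦ₁ord v hv1, hΦ₂ord v hv2, by rwa [hkap₁ v hvp hv1],
        by rwa [hkap₂ v hvp hv2]⟩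
    · obtain ⟨v, -, hvp, hv2, hv1, hk2, hk1⟩ :=
        exists_place_kap (K := K) hr₂ hr₁ hne.symm hr₂ne hr₁ne χ₂ hχ₂ χ₁ St
      exact ⟨v, hvp, hΦ₁ord v hv1, hΦ₂ord v hv2, by rwa [hkap₂ v hvp hv2],
        by rwa [hkap₁ v hvp hv1]⟩
  refine ⟨{
    hp := hp
    ζ := ζ
    hζ := hζ
    St := St
    hSt := hSt
    hgen := hgen
    hstab := hstab
    α := α / z ^ p
    hα := hα'SU
    hαprim := hα'prim
    hαtype := hα'type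
    Φ₁ := Φ₁
    Φ₂ := Φ₂
    hΦ₁ := hΦ₁SU
    hΦ₂ := hΦ₂SU
    hΦ₁prim := hΦ₁prim
    hΦ₂prim := hΦ₂prim
    hκ₁σ := fun σ v => by rw [hρ₁]; exact CtxAux.offS_kap_sigmaPl hstab χ₁ σ v
    hκ₁pair := fun γ hγ h1 h2 => by
      rw [hρ₁]; exact CtxAux.pair_offS_kap hp hr₁ hr₁ne χ₁ hincl₁ γ hγ h1 h2
    hκ₂pair := fun γ hγ h1 h2 => by
      rw [hρ₂]; exact CtxAux.pair_offS_kap hp hr₂ hr₂ne χ₂ hincl₂ γ hγ h1 h2
    hind := hind }, rfl, hα'ord⟩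

/-- **CORE**: there is no `α ∈ K = ℚ(ζ_p)`, not a `p`-th power, of Galois type `ω²`, whose divisor
is a `p`-th power away from `p` and which is primary at the place above `p`. -/
theorem core (hp : p ≠ 2) {ζ : K} (hζ : IsPrimitiveRoot ζ p) (α : K) (hα0 : α ≠ 0)
    (hα : ¬ IsPPow p α)
    (htype : ∀ (σ : K ≃ₐ[ℚ] K) (k : ℕ), σ ζ = ζ ^ k → IsPPow p (σ α / α ^ (k ^ 2)))
    (hord : ∀ v : Pl K, ¬ Above p v → (p : ℤ) ∣ ord v α)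
    (hprim : ∀ v : Pl K, Above p v → LocPow p v p α) : False := by
  obtain ⟨C, hCζ, hCord⟩ := exists_ctx hp hζ α hα0 hα htype hord hprim
  have hnp : ¬ IsPPow p C.α := by
    intro h
    have := C.hind.2 ![1, 0, 0] (by simpa [Fin.prod_univ_three] using h) 0
    have h1 : (p : ℤ) ∣ 1 := by simpa using this
    have h2 : p ∣ 1 := by exact_mod_cast h1
    exact (Fact.out : p.Prime).one_lt.ne' (Nat.dvd_one.mp h2)
  obtain ⟨π, hπ0, hπ, hπpair⟩ := exists_isCF C.hp C.hSt C.hα C.hαprim hnp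
  apply hπ0
  refine eq_zero_of_type C.hp C.hζ C.St C.hstab π hπ.1 hπ.2.1
    (fun σ k hσ v => C.type hπ σ k hσ v) ?_
  intro γ hγ h1 h2
  exact hπpair γ hγ (fun v hv => absurd (hCord v) hv) h1 h2

end Fermat.Agent.S14
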