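import Fermat.Agent.S14.Count
import Fermat.Agent.S14.Symbol

set_option autoImplicit false
set_option linter.unusedSectionVars false
set_option linter.unusedVariables false

/-!
# S14 / CORE1: class functionals
-/

namespace Fermat.Agent.S14

open IsDedekindDomain NumberField

variable {p : ℕ} [Fact p.Prime] {K : Type*} [Field K] [NumberField K]
  [IsCyclotomicExtension {p} ℚ K]

/-- `m` is a class functional relative to the "splitting condition" `P`. -/
def IsCF (p : ℕ) (St : Finset (Pl K)) (P : Pl K → Prop) (m : Pl K → ZMod p) : Prop :=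
  (∀ v ∈ St, m v = 0) ∧ (∀ v, Above p v → m v = 0) ∧
  (∀ v, v ∉ St → ¬ Above p v → P v → m v = 0) ∧
  ∀ γ : K, γ ≠ 0 → (∀ v ∈ St, LocPow p v 1 γ) → (∀ v, Above p v → LocPow p v p γ) → pair m γ = 0

open Classical in
/-- Restriction of a function on places to the complement of `St ∪ {λ}`. -/
noncomputable def offS (p : ℕ) (St : Finset (Pl K)) (m : Pl K → ZMod p) : Pl K → ZMod p :=
  fun v => if v ∈ St ∨ Above p v then 0 else m v

theorem pair_offS (St : Finset (Pl K)) (m : Pl K → ZMod p) {γ : K} (hγ : γ ≠ 0)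
    (h1 : ∀ v ∈ St, (p : ℤ) ∣ ord v γ) (h2 : ∀ v, Above p v → (p : ℤ) ∣ ord v γ) :
    pair (offS p St m) γ = pair m γ := by
  unfold pair
  refine finsum_congr fun v => ?_
  unfold offS
  split_ifs with h
  · have hd : (p : ℤ) ∣ ord v γ := h.elim (h1 v) (h2 v)
    have : ((ord v γ : ℤ) : ZMod p) = 0 := (ZMod.intCast_zmod_eq_zero_iff_dvd _ _).mpr hd
    rw [this]; simp
  · rfl

theorem IsCF.mono {St : Finset (Pl K)} {P P' : Pl K → Prop} {m : Pl K → ZMod p}
    (h : IsCF p St P m) (hP : ∀ v, P' v → P v) : IsCF p St P' m :=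
  ⟨h.1, h.2.1, fun v h1 h2 h3 => h.2.2.1 v h1 h2 (hP v h3), h.2.2.2⟩

theorem IsCF.add {St : Finset (Pl K)} {P : Pl K → Prop} {m m' : Pl K → ZMod p}
    (h : IsCF p St P m) (h' : IsCF p St P m') : IsCF p St P (m + m') := by
  refine ⟨fun v hv => ?_, fun v hv => ?_, fun v h1 h2 h3 => ?_, fun γ hγ h1 h2 => ?_⟩
  · simp [h.1 v hv, h'.1 v hv]
  · simp [h.2.1 v hv, h'.2.1 v hv]
  · simp [h.2.2.1 v h1 h2 h3, h'.2.2.1 v h1 h2 h3]
  · rw [pair_add_left _ _ hγ, h.2.2.2 γ hγ h1 h2, h'.2.2.2 γ hγ h1 h2, add_zero]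

theorem IsCF.smul {St : Finset (Pl K)} {P : Pl K → Prop} {m : Pl K → ZMod p}
    (h : IsCF p St P m) (a : ZMod p) : IsCF p St P (a • m) := by
  refine ⟨fun v hv => ?_, fun v hv => ?_, fun v h1 h2 h3 => ?_, fun γ hγ h1 h2 => ?_⟩
  · simp [h.1 v hv]
  · simp [h.2.1 v hv]
  · simp [h.2.2.1 v h1 h2 h3]
  · rw [pair_smul_left, h.2.2.2 γ hγ h1 h2, mul_zero]

/-- Transport of a class functional by a Galois automorphism. -/
theorem IsCF.sigma {St : Finset (Pl K)} (hstab : ∀ σ : K ≃ₐ[ℚ] K, ∀ v ∈ St, sigmaPl σ v ∈ St)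
    {P : Pl K → Prop} {m : Pl K → ZMod p} (h : IsCF p St P m) (σ : K ≃ₐ[ℚ] K) :
    IsCF p St (fun v => P (sigmaPl σ v)) (fun v => m (sigmaPl σ v)) := by
  have hinv : ∀ v, sigmaPl σ (sigmaPl σ⁻¹ v) = v := fun v => by
    rw [← sigmaPl_mul, mul_inv_cancel, sigmaPl_one]
  have hinv' : ∀ v, sigmaPl σ⁻¹ (sigmaPl σ v) = v := fun v => by
    rw [← sigmaPl_mul, inv_mul_cancel, sigmaPl_one]
  refine ⟨fun v hv => h.1 _ (hstab σ v hv), fun v hv => h.2.1 _ ((above_sigmaPl σ p v).mpr hv),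
    fun v h1 h2 h3 => h.2.2.1 _ (fun hc => h1 ?_) (fun hc => h2 ((above_sigmaPl σ p v).mp hc)) h3,
    fun γ hγ h1 h2 => ?_⟩
  · have := hstab σ⁻¹ _ hc
    rwa [hinv'] at this
  · rw [← pair_sigma]
    refine h.2.2.2 (σ γ) (by simpa using hγ) (fun v hv => ?_) (fun v hv => ?_)
    · rw [← hinv v, locPow_sigmaPl]
      exact h1 _ (hstab σ⁻¹ v hv)
    · rw [← hinv v, locPow_sigmaPl]
      exact h2 _ ((above_sigmaPl σ⁻¹ p v).mpr hv)

/-- A class functional vanishing on `T` is a `ClassFn`. -/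
theorem IsCF.classFn {St T : Finset (Pl K)} {P : Pl K → Prop} {m : Pl K → ZMod p}
    (h : IsCF p St P m) (hT : ∀ v ∈ T, m v = 0) : ClassFn p St T m :=
  ⟨h.1, hT, h.2.1, h.2.2.2⟩

/-- Dimension bound: class functionals vanishing wherever all `x i` are residues. -/
theorem cf_dim_le (hp : p ≠ 2) {ζ : K} (hζ : IsPrimitiveRoot ζ p) {St : Finset (Pl K)}
    (hSt : ∀ v ∈ St, ¬ Above p v) (hgen : GenCl St) {d : ℕ} (x : Fin d → K)
    (hx : ∀ i, IsSU0 p St (x i)) (hind : IndepModP p x) {k : ℕ} (f : Fin k → Pl K → ZMod p)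
    (hf : ∀ j, IsCF p St (fun v => ∀ i, LocPow p v 1 (x i)) (f j))
    (hli : LinearIndependent (ZMod p) f) : k ≤ d := by
  obtain ⟨T, hcard, hT, hTx, hsurj⟩ := exists_T hp hζ St hSt x hx hind ∅
  have hcount := chevalley_count hp hζ St T hSt (fun v hv => ⟨(hT v hv).1, (hT v hv).2.1⟩) hgen
    hsurj f (fun j => (hf j).classFn fun v hv =>
      (hf j).2.2.1 v (hT v hv).2.1 (hT v hv).1 (hTx v hv)) hli
  omega

/-- A single non-`p`-th power is independent modulo `p`-th powers. -/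
theorem indepModP_single {x : K} (hx0 : x ≠ 0) (hxp : ¬ IsPPow p x) : IndepModP p ![x] := by
  have hp : p.Prime := Fact.out
  refine ⟨fun i => by fin_cases i; simpa using hx0, fun e he i => ?_⟩
  fin_cases i
  simp only [Fin.prod_univ_one, Matrix.cons_val_zero, Fin.zero_eta, Fin.isValue] at he ⊢
  by_contra hnd
  have hcop : IsCoprime (e 0) (p : ℤ) :=
    ((Nat.prime_iff_prime_int.mp hp).coprime_iff_not_dvd.mpr hnd).symm
  obtain ⟨a, b, hab⟩ := hcop
  apply hxp
  have h1 : x = (x ^ e 0) ^ a * (x ^ b) ^ (p : ℤ) := by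
    rw [← zpow_mul, ← zpow_mul, ← zpow_add₀ hx0]
    have : e 0 * a + b * (p : ℤ) = 1 := by linarith
    rw [this, zpow_one]
  rw [h1]
  exact (he.zpow a).mul ⟨x ^ b, by simp⟩

theorem cf_unique (hp : p ≠ 2) {ζ : K} (hζ : IsPrimitiveRoot ζ p) {St : Finset (Pl K)}
    (hSt : ∀ v ∈ St, ¬ Above p v) (hgen : GenCl St) {x : K} (hx : IsSU0 p St x)
    (hxp : ¬ IsPPow p x) {m m' : Pl K → ZMod p} (hm : IsCF p St (fun v => LocPow p v 1 x) m)
    (hm' : IsCF p St (fun v => LocPow p v 1 x) m') (hm0 : m ≠ 0) : ∃ a : ZMod p, m' = a • m := by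
  by_contra hcon
  push Not at hcon
  have hli : LinearIndependent (ZMod p) ![m, m'] := by
    rw [LinearIndependent.pair_iff' hm0]
    exact fun a ha => hcon a ha.symm
  have hconv : ∀ v : Pl K, (∀ i : Fin 1, LocPow p v 1 ((![x] : Fin 1 → K) i)) → LocPow p v 1 x :=
    fun v h => by simpa using h 0
  have := cf_dim_le hp hζ hSt hgen ![x] (fun i => by fin_cases i; simpa using hx)
    (indepModP_single hx.1 hxp) ![m, m']
    (fun j => by
      fin_cases j
      · exact hm.mono hconv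
      · exact hm'.mono hconv) hli
  omega

/-- Decomposition law. -/
theorem cf_ne_zero_at (hp : p ≠ 2) {ζ : K} (hζ : IsPrimitiveRoot ζ p) {St : Finset (Pl K)}
    (hSt : ∀ v ∈ St, ¬ Above p v) (hgen : GenCl St) {x : K} (hx : IsSU0 p St x)
    (hxp : ¬ IsPPow p x) {m : Pl K → ZMod p} (hm : IsCF p St (fun v => LocPow p v 1 x) m)
    (hm0 : m ≠ 0) {v0 : Pl K} (hv0 : ¬ Above p v0) (hv0St : v0 ∉ St)
    (hx0 : ¬ LocPow p v0 1 x) : m v0 ≠ 0 := by
  intro hmv0
  obtain ⟨T, hcard, hT, hTx, hsurj⟩ := exists_T hp hζ St hSt ![x]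
    (fun i => by fin_cases i; simpa using hx) (indepModP_single hx.1 hxp) {v0}
  have hTx' : ∀ v ∈ T, LocPow p v 1 x := fun v hv => by simpa using hTx v hv 0
  have hv0T : v0 ∉ T := fun h => (hT v0 h).2.2 (by simp)
  have hsurj' := hsurj.insert hζ hv0 hv0St hv0T hx hTx' hx0
  have hli : LinearIndependent (ZMod p) ![m] := by
    have := LinearIndependent.of_subsingleton (R := ZMod p) (v := ![m]) 0 (by simpa using hm0)
    exact this
  have hcount := chevalley_count hp hζ St (Finset.cons v0 T hv0T) hSt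
    (fun v hv => by
      rcases Finset.mem_cons.mp hv with rfl | hv
      · exact ⟨hv0, hv0St⟩
      · exact ⟨(hT v hv).1, (hT v hv).2.1⟩) hgen hsurj' ![m]
    (fun j => by
      fin_cases j
      refine hm.classFn fun v hv => ?_
      rcases Finset.mem_cons.mp hv with rfl | hv
      · exact hmv0
      · exact hm.2.2.1 v (hT v hv).2.1 (hT v hv).1 (hTx' v hv)) hli
  rw [Finset.card_cons] at hcount
  omega

/-- Collinearity. -/
theorem cf_mem_span (hp : p ≠ 2) {ζ : K} (hζ : IsPrimitiveRoot ζ p) {St : Finset (Pl K)}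
    (hSt : ∀ v ∈ St, ¬ Above p v) (hgen : GenCl St) {x₁ x₂ : K} (hx₁ : IsSU0 p St x₁)
    (hx₂ : IsSU0 p St x₂) (hind : IndepModP p ![x₁, x₂]) {m₁ m₂ m₃ : Pl K → ZMod p}
    (h₁ : IsCF p St (fun v => LocPow p v 1 x₁ ∧ LocPow p v 1 x₂) m₁)
    (h₂ : IsCF p St (fun v => LocPow p v 1 x₁ ∧ LocPow p v 1 x₂) m₂)
    (h₃ : IsCF p St (fun v => LocPow p v 1 x₁ ∧ LocPow p v 1 x₂) m₃)
    (hli : LinearIndependent (ZMod p) ![m₁, m₂]) : ∃ a b : ZMod p, m₃ = a • m₁ + b • m₂ := by
  by_contra hcon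
  push Not at hcon
  have hnot : m₃ ∉ Submodule.span (ZMod p) (Set.range ![m₁, m₂]) := by
    intro hmem
    rw [Matrix.range_cons, Matrix.range_cons, Matrix.range_empty, Set.union_empty,
      Set.singleton_union, Submodule.mem_span_pair] at hmem
    obtain ⟨a, b, hab⟩ := hmem
    exact hcon a b hab.symm
  have hli3 : LinearIndependent (ZMod p) (Fin.cons m₃ ![m₁, m₂] : Fin 3 → Pl K → ZMod p) :=
    (linearIndependent_finCons).mpr ⟨hli, hnot⟩
  have hconv : ∀ v : Pl K, (∀ i : Fin 2, LocPow p v 1 ((![x₁, x₂] : Fin 2 → K) i)) →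
      LocPow p v 1 x₁ ∧ LocPow p v 1 x₂ :=
    fun v h => ⟨by simpa using h 0, by simpa using h 1⟩
  have := cf_dim_le hp hζ hSt hgen ![x₁, x₂]
    (fun i => by
      fin_cases i
      · simpa using hx₁
      · simpa using hx₂) hind (Fin.cons m₃ ![m₁, m₂] : Fin 3 → Pl K → ZMod p)
    (fun j => by
      fin_cases j
      · exact h₃.mono hconv
      · exact h₁.mono hconv
      · exact h₂.mono hconv) hli3
  omega

/-- Existence of a nonzero class functional (from the first inequality). -/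
theorem exists_isCF (hp : p ≠ 2) {St : Finset (Pl K)} (hSt : ∀ v ∈ St, ¬ Above p v) {x : K}
    (hx : IsSU0 p St x) (hprim : ∀ v, Above p v → LocPow p v p x) (hxp : ¬ IsPPow p x) :
    ∃ m : Pl K → ZMod p, m ≠ 0 ∧ IsCF p St (fun v => LocPow p v 1 x) m ∧
      ∀ γ : K, γ ≠ 0 → (∀ v, ¬ (p : ℤ) ∣ ord v x → LocPow p v 1 γ) →
        (∀ v ∈ St, (p : ℤ) ∣ ord v γ) → (∀ v, Above p v → (p : ℤ) ∣ ord v γ) → pair m γ = 0 := by
  classical
  have hpp : p.Prime := Fact.out
  obtain ⟨m0, hm0, ha, hb, hc⟩ := firstIneq hp x hx.1 hxp hprim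
  -- the ramified places lie in `St`
  have hTx : ∀ v, ¬ (p : ℤ) ∣ ord v x → v ∈ St := by
    intro v hv
    by_contra hvS
    by_cases hvp : Above p v
    · exact hv (hx.2.2 v hvp)
    · exact hv (by rw [hx.2.1 v hvS hvp]; exact dvd_zero _)
  refine ⟨offS p St m0, ?_, ⟨?_, ?_, ?_, ?_⟩, ?_⟩
  · -- nonvanishing
    intro hzero
    have hsupp : ∀ v, v ∉ St → ¬ Above p v → m0 v = 0 := by
      intro v h1 h2
      have := congrFun hzero v
      simpa [offS, h1, h2] using this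
    obtain ⟨v1, hv1⟩ : ∃ v1, m0 v1 ≠ 0 := by
      by_contra hall
      push Not at hall
      exact hm0 (funext hall)
    have hv1x : (p : ℤ) ∣ ord v1 x := by
      by_contra h
      exact hv1 (ha v1 h)
    set s : Finset (Pl K) := insert v1 (St ∪ (finite_above (F := K) p hpp.ne_zero).toFinset)
      with hs
    obtain ⟨π, hπ0, hπ⟩ := exists_ord_eq ({v1} : Finset (Pl K)) (fun _ => 1)
    have hπ1 : ord v1 π = 1 := hπ v1 (by simp)
    obtain ⟨γ, hγ0, hγ⟩ := exists_approx s (fun v => if v = v1 then π else 1)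
      (fun v _ => by split_ifs <;> simp [hπ0]) 1
    -- orders of γ on `s`
    have hord1 : ord v1 γ = 1 := by
      have h := hγ v1 (by simp [hs])
      simp only [if_true] at h
      have h' : ord v1 (γ / π) = 0 := ord_eq_zero_of_valuation_sub_one_lt v1
        (lt_of_le_of_lt h (exp_neg_natCast_lt_one le_rfl))
      rw [ord_div v1 hγ0 hπ0, hπ1] at h'
      omega
    have hclose : ∀ v ∈ s, v ≠ v1 → v.valuation K (γ - 1) ≤ WithZero.exp (-((1 : ℕ) : ℤ)) := by
      intro v hv hne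
      have h := hγ v hv
      simpa [hne] using h
    have hord0 : ∀ v ∈ s, v ≠ v1 → ord v γ = 0 := fun v hv hne =>
      ord_eq_zero_of_valuation_sub_one_lt v
        (lt_of_le_of_lt (hclose v hv hne) (exp_neg_natCast_lt_one le_rfl))
    have hpair : pair m0 γ = m0 v1 := by
      rw [pair_eq_sum m0 γ s]
      · rw [Finset.sum_eq_single v1]
        · rw [hord1]; simp
        · intro v hv hne
          rw [hord0 v hv hne]; simp
        · intro h; exact absurd (by simp [hs]) h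
      · intro v hv
        right
        apply hsupp v
        · intro h; exact hv (by simp [hs, h])
        · intro h; exact hv (by simp [hs, h])
    have hzero' : pair m0 γ = 0 := by
      apply hc γ hγ0
      intro v hv
      have hvS := hTx v hv
      have hne : v ≠ v1 := by rintro rfl; exact hv hv1x
      refine ⟨1, one_ne_zero, ?_⟩
      simpa using hclose v (by simp [hs, hvS]) hne
    exact hv1 (hpair ▸ hzero')
  · intro v hv; simp [offS, hv]
  · intro v hv; simp [offS, hv]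
  · intro v h1 h2 h3
    simp only [offS, h1, h2, or_self, if_false]
    exact hb v h2 h3
  · intro γ hγ h1 h2
    rw [pair_offS St m0 hγ (fun v hv => (h1 v hv).dvd_ord le_rfl)
      (fun v hv => (h2 v hv).dvd_ord hpp.one_le)]
    exact hc γ hγ fun v hv => h1 v (hTx v hv)
  · intro γ hγ h1 h2 h3
    rw [pair_offS St m0 hγ h2 h3]
    exact hc γ hγ h1

end Fermat.Agent.S14
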