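import Fermat.Agent.S14.Core.CF

set_option autoImplicit false
set_option linter.unusedSectionVars false
set_option linter.unusedVariables false

/-!
# S14 / CORE2: closure properties of `IsSU0`, the residue functions `rho`, places on a given line
-/

namespace Fermat.Agent.S14

open IsDedekindDomain NumberField

variable {p : ℕ} [Fact p.Prime] {K : Type*} [Field K] [NumberField K]
  [IsCyclotomicExtension {p} ℚ K]

theorem IsSU0.ne_zero {St : Finset (Pl K)} {x : K} (h : IsSU0 p St x) : x ≠ 0 := h.1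

theorem IsSU0.ord_eq_zero {St : Finset (Pl K)} {x : K} (h : IsSU0 p St x) {v : Pl K}
    (hv : v ∉ St) (hvp : ¬ Above p v) : ord v x = 0 := h.2.1 v hv hvp

-- `isSU0_one`, `IsSU0.mul`, `IsSU0.pow` are provided by `Count/Basis.lean`.

theorem IsSU0.zpow {St : Finset (Pl K)} {x : K} (hx : IsSU0 p St x) (n : ℤ) :
    IsSU0 p St (x ^ n) := by
  refine ⟨zpow_ne_zero n hx.1, fun v h1 h2 => ?_, fun v hv => ?_⟩
  · rw [ord_zpow, hx.2.1 v h1 h2, mul_zero]
  · rw [ord_zpow]
    exact Dvd.dvd.mul_left (hx.2.2 v hv) _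

theorem IsSU0.sigma {St : Finset (Pl K)} (hstab : ∀ σ : K ≃ₐ[ℚ] K, ∀ v ∈ St, sigmaPl σ v ∈ St)
    {x : K} (hx : IsSU0 p St x) (σ : K ≃ₐ[ℚ] K) : IsSU0 p St (σ x) := by
  have hinv : ∀ v, sigmaPl σ (sigmaPl σ⁻¹ v) = v := fun v => by
    rw [← sigmaPl_mul, mul_inv_cancel, sigmaPl_one]
  refine ⟨by simpa using hx.1, fun v h1 h2 => ?_, fun v hv => ?_⟩
  · rw [← hinv v, ord_sigmaPl]
    refine hx.2.1 _ (fun hc => h1 ?_) (fun hc => h2 ((above_sigmaPl σ⁻¹ p v).mp hc))
    have := hstab σ _ hc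
    rwa [hinv] at this
  · rw [← hinv v, ord_sigmaPl]
    exact hx.2.2 _ ((above_sigmaPl σ⁻¹ p v).mpr hv)

/-- `v ↦ rs_v(x)` off `St ∪ {λ}`. -/
noncomputable def rho (ζ : K) (St : Finset (Pl K)) (x : K) : Pl K → ZMod p :=
  offS p St (fun v => rs p ζ v x)

theorem rho_apply {ζ : K} {St : Finset (Pl K)} (x : K) {v : Pl K} (hv : v ∉ St)
    (hvp : ¬ Above p v) : rho (p := p) ζ St x v = rs p ζ v x := by
  simp [rho, offS, hv, hvp]

theorem rho_of_mem {ζ : K} {St : Finset (Pl K)} (x : K) {v : Pl K} (hv : v ∈ St) :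
    rho (p := p) ζ St x v = 0 := by
  simp [rho, offS, hv]

theorem rho_of_above {ζ : K} {St : Finset (Pl K)} (x : K) {v : Pl K} (hv : Above p v) :
    rho (p := p) ζ St x v = 0 := by
  simp [rho, offS, hv]

theorem rho_mul {ζ : K} (hζ : IsPrimitiveRoot ζ p) {St : Finset (Pl K)} {x y : K}
    (hx : IsSU0 p St x) (hy : IsSU0 p St y) :
    rho (p := p) ζ St (x * y) = rho ζ St x + rho ζ St y := by
  funext v
  by_cases hv : v ∈ St
  · simp [rho_of_mem _ hv]
  by_cases hvp : Above p v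
  · simp [rho_of_above _ hvp]
  rw [Pi.add_apply, rho_apply _ hv hvp, rho_apply _ hv hvp, rho_apply _ hv hvp,
    rs_mul hζ hvp hx.1 (hx.2.1 v hv hvp) hy.1 (hy.2.1 v hv hvp)]

theorem rho_pow {ζ : K} (hζ : IsPrimitiveRoot ζ p) {St : Finset (Pl K)} {x : K}
    (hx : IsSU0 p St x) (n : ℕ) :
    rho (p := p) ζ St (x ^ n) = (n : ZMod p) • rho ζ St x := by
  funext v
  by_cases hv : v ∈ St
  · simp [rho_of_mem _ hv]
  by_cases hvp : Above p v
  · simp [rho_of_above _ hvp]
  rw [Pi.smul_apply, rho_apply _ hv hvp, rho_apply _ hv hvp,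
    rs_pow hζ hvp hx.1 (hx.2.1 v hv hvp), smul_eq_mul]

theorem rho_eq_zero_iff {ζ : K} (hζ : IsPrimitiveRoot ζ p) {St : Finset (Pl K)} {x : K}
    (hx : IsSU0 p St x) {v : Pl K} (hv : v ∉ St) (hvp : ¬ Above p v) :
    rho (p := p) ζ St x v = 0 ↔ LocPow p v 1 x := by
  rw [rho_apply _ hv hvp, rs_eq_zero_iff hζ hvp hx.1 (hx.2.1 v hv hvp)]

theorem rho_of_isPPow {ζ : K} (hζ : IsPrimitiveRoot ζ p) {St : Finset (Pl K)} {x : K}
    (hx : IsSU0 p St x) (h : IsPPow p x) : rho (p := p) ζ St x = 0 := by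
  funext v
  by_cases hv : v ∈ St
  · simp [rho_of_mem _ hv]
  by_cases hvp : Above p v
  · simp [rho_of_above _ hvp]
  rw [Pi.zero_apply, rho_eq_zero_iff hζ hx hv hvp]
  exact locPow_of_isPPow v 1 hx.1 h

/-- Galois equivariance of `rho`. -/
theorem rho_sigma {ζ : K} (hζ : IsPrimitiveRoot ζ p) {St : Finset (Pl K)}
    (hstab : ∀ σ : K ≃ₐ[ℚ] K, ∀ v ∈ St, sigmaPl σ v ∈ St) {x : K} (hx : IsSU0 p St x)
    (σ : K ≃ₐ[ℚ] K) (k : ℕ) (hσ : σ ζ = ζ ^ k) (v : Pl K) :
    rho (p := p) ζ St (σ x) (sigmaPl σ v) = (k : ZMod p) * rho ζ St x v := by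
  have hinv' : ∀ v, sigmaPl σ⁻¹ (sigmaPl σ v) = v := fun v => by
    rw [← sigmaPl_mul, inv_mul_cancel, sigmaPl_one]
  by_cases hv : v ∈ St
  · rw [rho_of_mem _ hv, rho_of_mem _ (hstab σ v hv), mul_zero]
  by_cases hvp : Above p v
  · rw [rho_of_above _ hvp, rho_of_above _ ((above_sigmaPl σ p v).mpr hvp), mul_zero]
  have hv' : sigmaPl σ v ∉ St := fun hc => hv (by
    have := hstab σ⁻¹ _ hc
    rwa [hinv'] at this)
  have hvp' : ¬ Above p (sigmaPl σ v) := fun hc => hvp ((above_sigmaPl σ p v).mp hc)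
  rw [rho_apply _ hv hvp, rho_apply _ hv' hvp',
    rs_sigmaPl hζ hvp hx.1 (hx.2.1 v hv hvp) σ k hσ]

/-- Linear algebra for FDL: a triangular change of family preserves linear independence. -/
theorem linearIndependent_smul_add_smul {R M ι : Type*} [Field R] [AddCommGroup M] [Module R M]
    [Fintype ι] [DecidableEq ι] (c : ι → M) (hc : LinearIndependent R c) (i0 : ι) (a b : ι → R)
    (ha : ∀ i, a i ≠ 0) (hb : b i0 = 0) :
    LinearIndependent R (fun i => a i • c i + b i • c i0) := by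
  replace hc := Fintype.linearIndependent_iff.mp hc
  refine Fintype.linearIndependent_iff.mpr ?_
  intro g hg
  set S : R := ∑ j, g j * b j with hS
  have key : ∑ i, (g i * a i + if i = i0 then S else 0) • c i = 0 := by
    rw [← hg]
    simp only [smul_add, add_smul, Finset.sum_add_distrib, smul_smul, ite_smul, zero_smul]
    congr 1
    rw [Finset.sum_ite_eq' Finset.univ i0, if_pos (Finset.mem_univ i0), hS, Finset.sum_smul]
  have h1 := hc _ key
  have hg' : ∀ i, i ≠ i0 → g i = 0 := by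
    intro i hi
    have := h1 i
    simp only [hi, if_false, add_zero] at this
    exact (mul_eq_zero.mp this).resolve_right (ha i)
  have hS0 : S = 0 := by
    rw [hS]
    refine Finset.sum_eq_zero fun j _ => ?_
    by_cases hj : j = i0
    · rw [hj, hb, mul_zero]
    · rw [hg' j hj, zero_mul]
  intro i
  by_cases hi : i = i0
  · have := h1 i0
    simp only [if_true, hS0, add_zero] at this
    rw [hi]; exact (mul_eq_zero.mp this).resolve_right (ha i0)
  · exact hg' i hi

/-- **FDL**: for an independent family, the vector of residue symbols `(rs_v (x i))_i` hits every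
line. -/
theorem exists_place_line {ζ : K} (hζ : IsPrimitiveRoot ζ p) {St : Finset (Pl K)} {ι : Type*}
    [Fintype ι] (x : ι → K) (hx : ∀ i, IsSU0 p St (x i)) (hind : IndepModP p x)
    (t : ι → ZMod p) (ht : t ≠ 0) (s : Finset (Pl K)) :
    ∃ v : Pl K, v ∉ s ∧ v ∉ St ∧ ¬ Above p v ∧
      ∃ c : ZMod p, c ≠ 0 ∧ ∀ i, rho (p := p) ζ St (x i) v = c * t i := by
  classical
  have hpp : p.Prime := Fact.out
  have : NeZero p := ⟨hpp.ne_zero⟩
  obtain ⟨i0, hi0⟩ : ∃ i, t i ≠ 0 := by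
    by_contra h
    push Not at h
    exact ht (funext h)
  have hx0 : ∀ i, x i ≠ 0 := fun i => (hx i).1
  set y : ι → K := fun i => if i = i0 then x i0 else x i ^ (t i0).val * (x i0 ^ (t i).val)⁻¹
    with hy
  have hy0 : ∀ i, y i ≠ 0 := by
    intro i
    simp only [hy]
    split_ifs
    · exact hx0 i0
    · exact mul_ne_zero (pow_ne_zero _ (hx0 i)) (inv_ne_zero (pow_ne_zero _ (hx0 i0)))
  -- coefficients
  set a : ι → ZMod p := fun i => if i = i0 then 1 else t i0 with ha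
  set b : ι → ZMod p := fun i => if i = i0 then 0 else - t i with hb
  have hcls : ∀ i, cls p (y i) = a i • cls p (x i) + b i • cls p (x i0) := by
    intro i
    simp only [hy, ha, hb]
    split_ifs with h
    · subst h; simp
    · rw [cls_mul (pow_ne_zero _ (hx0 i)) (inv_ne_zero (pow_ne_zero _ (hx0 i0))), cls_inv,
        cls_pow, cls_pow, ZMod.natCast_zmod_val, ZMod.natCast_zmod_val, neg_smul]
  have hyind : IndepModP p y := by
    rw [indepModP_iff y hy0]
    have hc := (indepModP_iff x hx0).mp hind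
    have h2 := linearIndependent_smul_add_smul (fun i => cls p (x i)) hc i0 a b
      (fun i => by simp only [ha]; split_ifs; exacts [one_ne_zero, hi0]) (by simp [hb])
    have h3 : (fun i => cls p (y i)) = fun i => a i • cls p (x i) + b i • cls p (x i0) :=
      funext hcls
    rw [h3]
    exact h2
  obtain ⟨v, hvs, hvp, hord, hres, hnres⟩ := exists_place_sep hζ y hyind i0 (s ∪ St)
  have hvs' : v ∉ s := fun h => hvs (Finset.mem_union_left _ h)
  have hvSt : v ∉ St := fun h => hvs (Finset.mem_union_right _ h)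
  have hox : ∀ i, ord v (x i) = 0 := fun i => (hx i).2.1 v hvSt hvp
  have hyi0 : y i0 = x i0 := by simp [hy]
  have hr0 : rs p ζ v (x i0) ≠ 0 := by
    intro h
    rw [hyi0] at hnres
    exact hnres ((rs_eq_zero_iff hζ hvp (hx0 i0) (hox i0)).mp h)
  refine ⟨v, hvs', hvSt, hvp, rs p ζ v (x i0) / t i0, div_ne_zero hr0 hi0, fun i => ?_⟩
  rw [rho_apply _ hvSt hvp]
  by_cases hi : i = i0
  · rw [hi, div_mul_cancel₀ _ hi0]
  · have h1 := (rs_eq_zero_iff hζ hvp (hy0 i) (hord i)).mpr (hres i hi)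
    have hyi : y i = x i ^ (t i0).val * (x i0 ^ (t i).val)⁻¹ := by simp [hy, hi]
    rw [hyi, rs_mul hζ hvp (pow_ne_zero _ (hx0 i)) (by rw [ord_pow, hox i, mul_zero])
      (inv_ne_zero (pow_ne_zero _ (hx0 i0))) (by rw [ord_inv, ord_pow, hox i0, mul_zero, neg_zero]),
      rs_inv hζ hvp (pow_ne_zero _ (hx0 i0)) (by rw [ord_pow, hox i0, mul_zero]),
      rs_pow hζ hvp (hx0 i) (hox i), rs_pow hζ hvp (hx0 i0) (hox i0),
      ZMod.natCast_zmod_val, ZMod.natCast_zmod_val] at h1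
    field_simp
    linear_combination h1

end Fermat.Agent.S14
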