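import Fermat.Agent.S14.Core.Rho

set_option autoImplicit false

/-!
# S14 / CORE3: crossing with two Gauss sum elements; the Galois type of the class functional
-/

namespace Fermat.Agent.S14

open IsDedekindDomain NumberField

/-- The data of the crossing argument. -/
structure Ctx (p : ℕ) [Fact p.Prime] (K : Type*) [Field K] [NumberField K]
    [IsCyclotomicExtension {p} ℚ K] where
  hp : p ≠ 2
  ζ : K
  hζ : IsPrimitiveRoot ζ p
  St : Finset (Pl K)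
  hSt : ∀ v ∈ St, ¬ Above p v
  hgen : GenCl St
  hstab : ∀ σ : K ≃ₐ[ℚ] K, ∀ v ∈ St, sigmaPl σ v ∈ St
  α : K
  hα : IsSU0 p St α
  hαprim : ∀ v, Above p v → LocPow p v p α
  hαtype : ∀ (σ : K ≃ₐ[ℚ] K) (k : ℕ), σ ζ = ζ ^ k → IsPPow p (σ α / α ^ (k ^ 2))
  Φ₁ : K
  Φ₂ : K
  hΦ₁ : IsSU0 p St Φ₁
  hΦ₂ : IsSU0 p St Φ₂
  hΦ₁prim : ∀ v, Above p v → LocPow p v p Φ₁
  hΦ₂prim : ∀ v, Above p v → LocPow p v p Φ₂
  hκ₁σ : ∀ (σ : K ≃ₐ[ℚ] K) v, rho (p := p) ζ St Φ₁ (sigmaPl σ v) = rho ζ St Φ₁ v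
  hκ₁pair : ∀ γ : K, γ ≠ 0 → (∀ v ∈ St, LocPow p v 1 γ) → (∀ v, Above p v → LocPow p v p γ) →
    pair (rho (p := p) ζ St Φ₁) γ = 0
  hκ₂pair : ∀ γ : K, γ ≠ 0 → (∀ v ∈ St, LocPow p v 1 γ) → (∀ v, Above p v → LocPow p v p γ) →
    pair (rho (p := p) ζ St Φ₂) γ = 0
  hind : IndepModP p ![α, Φ₁, Φ₂]

variable {p : ℕ} [Fact p.Prime] {K : Type*} [Field K] [NumberField K]
  [IsCyclotomicExtension {p} ℚ K]

namespace Ctx

variable (C : Ctx p K)

/-- `rs(α)` off `S`. -/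
noncomputable def ρ : Pl K → ZMod p := rho C.ζ C.St C.α
/-- `rs(Φ₁)` off `S`. -/
noncomputable def κ₁ : Pl K → ZMod p := rho C.ζ C.St C.Φ₁
/-- `rs(Φ₂)` off `S`. -/
noncomputable def κ₂ : Pl K → ZMod p := rho C.ζ C.St C.Φ₂

/-- `α Φ₁^a Φ₂^b`. -/
noncomputable def x (a b : ZMod p) : K := C.α * C.Φ₁ ^ a.val * C.Φ₂ ^ b.val

theorem x_isSU0 (a b : ZMod p) : IsSU0 p C.St (C.x a b) :=
  (C.hα.mul (C.hΦ₁.pow _)).mul (C.hΦ₂.pow _)

theorem x_prim (a b : ZMod p) (v : Pl K) (hv : Above p v) : LocPow p v p (C.x a b) :=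
  ((C.hαprim v hv).mul ((C.hΦ₁prim v hv).pow _)).mul ((C.hΦ₂prim v hv).pow _)

theorem not_dvd_one : ¬ (p : ℤ) ∣ 1 := by
  intro h1
  have h2 : p ∣ 1 := by exact_mod_cast h1
  exact (Fact.out : p.Prime).one_lt.ne' (Nat.dvd_one.mp h2)

theorem x_not_ppow (a b : ZMod p) : ¬ IsPPow p (C.x a b) := by
  intro h
  have e : ∏ i, ![C.α, C.Φ₁, C.Φ₂] i ^ (![1, (a.val : ℤ), (b.val : ℤ)] i) = C.x a b := by
    rw [Fin.prod_univ_three]
    simp only [Matrix.cons_val_zero, Matrix.cons_val_one, Matrix.cons_val]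
    rw [zpow_one, zpow_natCast, zpow_natCast]
    rfl
  have := C.hind.2 ![1, (a.val : ℤ), (b.val : ℤ)] (by rw [e]; exact h) 0
  exact not_dvd_one (by simpa using this)

theorem rho_x (a b : ZMod p) :
    rho (p := p) C.ζ C.St (C.x a b) = C.ρ + a • C.κ₁ + b • C.κ₂ := by
  unfold x
  rw [rho_mul C.hζ (C.hα.mul (C.hΦ₁.pow _)) (C.hΦ₂.pow _), rho_mul C.hζ C.hα (C.hΦ₁.pow _),
    rho_pow C.hζ C.hΦ₁, rho_pow C.hζ C.hΦ₂, ZMod.natCast_zmod_val, ZMod.natCast_zmod_val]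
  rfl

/-- FDL for the family `α, Φ₁, Φ₂`. -/
theorem exists_place (t₀ t₁ t₂ : ZMod p) (ht : t₀ ≠ 0 ∨ t₁ ≠ 0 ∨ t₂ ≠ 0) :
    ∃ v : Pl K, v ∉ C.St ∧ ¬ Above p v ∧ ∃ c : ZMod p, c ≠ 0 ∧ C.ρ v = c * t₀ ∧
      C.κ₁ v = c * t₁ ∧ C.κ₂ v = c * t₂ := by
  have hx : ∀ i, IsSU0 p C.St (![C.α, C.Φ₁, C.Φ₂] i) := by
    intro i; fin_cases i
    · exact C.hα
    · exact C.hΦ₁
    · exact C.hΦ₂
  have ht' : (![t₀, t₁, t₂] : Fin 3 → ZMod p) ≠ 0 := by
    intro h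
    have h0 := congrFun h 0
    have h1 := congrFun h 1
    have h2 := congrFun h 2
    simp at h0 h1 h2
    tauto
  obtain ⟨v, -, hv, hvp, c, hc, h⟩ :=
    exists_place_line C.hζ (St := C.St) ![C.α, C.Φ₁, C.Φ₂] hx C.hind ![t₀, t₁, t₂] ht' ∅
  exact ⟨v, hv, hvp, c, hc, h 0, h 1, h 2⟩

/-- The common splitting condition. -/
def P₃ (v : Pl K) : Prop := ∀ i, LocPow p v 1 (![C.α, C.Φ₁, C.Φ₂] i)

theorem P₃_iff (v : Pl K) :
    C.P₃ v ↔ LocPow p v 1 C.α ∧ LocPow p v 1 C.Φ₁ ∧ LocPow p v 1 C.Φ₂ := by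
  simp [P₃, Fin.forall_fin_succ]

theorem isCF_κ₁ : IsCF p C.St C.P₃ C.κ₁ := by
  refine ⟨fun v hv => rho_of_mem _ hv, fun v hv => rho_of_above _ hv, fun v hv hvp hP => ?_,
    C.hκ₁pair⟩
  exact (rho_eq_zero_iff C.hζ C.hΦ₁ hv hvp).mpr ((C.P₃_iff v).mp hP).2.1

theorem isCF_κ₂ : IsCF p C.St C.P₃ C.κ₂ := by
  refine ⟨fun v hv => rho_of_mem _ hv, fun v hv => rho_of_above _ hv, fun v hv hvp hP => ?_,
    C.hκ₂pair⟩
  exact (rho_eq_zero_iff C.hζ C.hΦ₂ hv hvp).mpr ((C.P₃_iff v).mp hP).2.2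

theorem α_not_ppow : ¬ IsPPow p C.α := by
  intro h
  have := C.hind.2 ![1, 0, 0] (by simpa [Fin.prod_univ_three] using h) 0
  exact not_dvd_one (by simpa using this)

section withπ

variable {C} {π : Pl K → ZMod p} (hπ : IsCF p C.St (fun v => LocPow p v 1 C.α) π)

include hπ

theorem π_eq_zero {v : Pl K} (hv : v ∉ C.St) (hvp : ¬ Above p v) (h : C.ρ v = 0) : π v = 0 :=
  hπ.2.2.1 v hv hvp ((rho_eq_zero_iff C.hζ C.hα hv hvp).mp h)

theorem π_ne_zero (hπ0 : π ≠ 0) {v : Pl K} (hv : v ∉ C.St) (hvp : ¬ Above p v)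
    (h : C.ρ v ≠ 0) : π v ≠ 0 :=
  cf_ne_zero_at C.hp C.hζ C.hSt C.hgen C.hα C.α_not_ppow hπ hπ0 hvp hv
    (fun h' => h ((rho_eq_zero_iff C.hζ C.hα hv hvp).mpr h'))

theorem isCF_π : IsCF p C.St C.P₃ π := hπ.mono (fun v hv => ((C.P₃_iff v).mp hv).1)

theorem linearIndependent_π (hπ0 : π ≠ 0) : LinearIndependent (ZMod p) ![π, C.κ₁, C.κ₂] := by
  rw [Fintype.linearIndependent_iff]
  intro g hg
  simp only [Fin.sum_univ_three, Matrix.cons_val_zero, Matrix.cons_val_one,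
    Matrix.cons_val] at hg
  have key : ∀ v, g 0 * π v + g 1 * C.κ₁ v + g 2 * C.κ₂ v = 0 := by
    intro v
    have := congrFun hg v
    simpa using this
  have h0 : g 0 = 0 := by
    obtain ⟨v, hv, hvp, c, hc, e0, e1, e2⟩ := C.exists_place 1 0 0 (by simp)
    have := key v
    rw [e1, e2] at this
    have h' : π v ≠ 0 := π_ne_zero hπ hπ0 hv hvp (by rw [e0]; simpa using hc)
    simpa [h'] using this
  have h1 : g 1 = 0 := by
    obtain ⟨v, hv, hvp, c, hc, e0, e1, e2⟩ := C.exists_place 0 1 0 (by simp)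
    have := key v
    rw [e1, e2, h0] at this
    simpa [hc] using this
  have h2 : g 2 = 0 := by
    obtain ⟨v, hv, hvp, c, hc, e0, e1, e2⟩ := C.exists_place 0 0 1 (by simp)
    have := key v
    rw [e1, e2, h0] at this
    simpa [hc] using this
  intro i; fin_cases i
  · exact h0
  · exact h1
  · exact h2

/-- Lemma E. -/
theorem exists_good (hπ0 : π ≠ 0) (a b : ZMod p) : ∃ t₁ t₂ : ZMod p, ∀ v, v ∉ C.St → ¬ Above p v →
    C.ρ v + a * C.κ₁ v + b * C.κ₂ v = 0 → π v + t₁ * C.κ₁ v + t₂ * C.κ₂ v = 0 := by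
  obtain ⟨μ, hμ0, hμ, -⟩ := exists_isCF C.hp C.hSt (C.x_isSU0 a b) (C.x_prim a b) (C.x_not_ppow a b)
  have hμ3 : IsCF p C.St C.P₃ μ := hμ.mono (fun v hv => by
    obtain ⟨h1, h2, h3⟩ := (C.P₃_iff v).mp hv
    exact (h1.mul (h2.pow _)).mul (h3.pow _))
  have hvan : ∀ v, v ∉ C.St → ¬ Above p v → C.ρ v + a * C.κ₁ v + b * C.κ₂ v = 0 → μ v = 0 := by
    intro v hv hvp h
    apply hμ.2.2.1 v hv hvp
    rw [← rho_eq_zero_iff C.hζ (C.x_isSU0 a b) hv hvp, C.rho_x]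
    simpa using h
  have hx : ∀ i, IsSU0 p C.St (![C.α, C.Φ₁, C.Φ₂] i) := by
    intro i; fin_cases i
    · exact C.hα
    · exact C.hΦ₁
    · exact C.hΦ₂
  have hnli : ¬ LinearIndependent (ZMod p) (Fin.cons μ ![π, C.κ₁, C.κ₂] : Fin 4 → Pl K → ZMod p) := by
    intro hli
    have := cf_dim_le C.hp C.hζ C.hSt C.hgen ![C.α, C.Φ₁, C.Φ₂] hx C.hind
      (Fin.cons μ ![π, C.κ₁, C.κ₂] : Fin 4 → Pl K → ZMod p) (by
        intro j
        refine Fin.cases ?_ (fun j => ?_) j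
        · exact hμ3
        · fin_cases j
          · exact isCF_π hπ
          · exact C.isCF_κ₁
          · exact C.isCF_κ₂) hli
    omega
  rw [linearIndependent_finCons] at hnli
  have hmem : μ ∈ Submodule.span (ZMod p) (Set.range ![π, C.κ₁, C.κ₂]) := by
    by_contra h
    exact hnli ⟨linearIndependent_π hπ hπ0, h⟩
  obtain ⟨g, hg⟩ := (Submodule.mem_span_range_iff_exists_fun (ZMod p)).mp hmem
  simp only [Fin.sum_univ_three, Matrix.cons_val_zero, Matrix.cons_val_one,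
    Matrix.cons_val] at hg
  have key : ∀ v, g 0 * π v + g 1 * C.κ₁ v + g 2 * C.κ₂ v = μ v := by
    intro v
    have := congrFun hg v
    simpa using this
  have hs : g 0 ≠ 0 := by
    intro h0
    have h1 : g 1 = 0 := by
      obtain ⟨v, hv, hvp, c, hc, e0, e1, e2⟩ := C.exists_place (-a) 1 0 (by simp)
      have := key v
      rw [hvan v hv hvp (by rw [e0, e1, e2]; ring), e1, e2, h0] at this
      simpa [hc] using this
    have h2 : g 2 = 0 := by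
      obtain ⟨v, hv, hvp, c, hc, e0, e1, e2⟩ := C.exists_place (-b) 0 1 (by simp)
      have := key v
      rw [hvan v hv hvp (by rw [e0, e1, e2]; ring), e1, e2, h0] at this
      simpa [hc] using this
    apply hμ0
    funext v
    rw [← key v, h0, h1, h2]; simp
  refine ⟨g 1 / g 0, g 2 / g 0, fun v hv hvp h => ?_⟩
  have := key v
  rw [hvan v hv hvp h] at this
  field_simp
  linear_combination this

/-- T4: the explicit formula at places where `κ₁ ≠ 0`. -/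
theorem exists_const (hπ0 : π ≠ 0) : ∃ c : ZMod p, ∀ v, v ∉ C.St → ¬ Above p v → C.κ₁ v ≠ 0 →
    π v = c * C.ρ v := by
  choose t₁ t₂ ht using exists_good hπ hπ0
  refine ⟨t₂ 0 1, fun v hv hvp hκ => ?_⟩
  -- t₂ (a, 0) = 0
  have A : ∀ a, t₂ a 0 = 0 := by
    intro a
    obtain ⟨w, hw, hwp, c, hc, e0, e1, e2⟩ := C.exists_place 0 0 1 (by simp)
    have := ht a 0 w hw hwp (by rw [e0, e1, e2]; ring)
    rw [π_eq_zero hπ hw hwp (by rw [e0]; ring), e1, e2] at this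
    simpa [hc] using this
  -- t₁ (a, 0) = t₁ (a, 1)
  have B : ∀ a, t₁ a 0 = t₁ a 1 := by
    intro a
    obtain ⟨w, hw, hwp, c, hc, e0, e1, e2⟩ := C.exists_place (-a) 1 0 (by simp)
    have h0 := ht a 0 w hw hwp (by rw [e0, e1, e2]; ring)
    have h1 := ht a 1 w hw hwp (by rw [e0, e1, e2]; ring)
    rw [e1, e2] at h0 h1
    have : c * (t₁ a 0 - t₁ a 1) = 0 := by linear_combination h0 - h1
    rcases mul_eq_zero.mp this with h | h
    · exact absurd h hc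
    · exact sub_eq_zero.mp h
  -- t₂ (a, 1) = t₂ (0, 1)
  have D : ∀ a, t₂ a 1 = t₂ 0 1 := by
    intro a
    obtain ⟨w, hw, hwp, c, hc, e0, e1, e2⟩ := C.exists_place (-1) 0 1 (by simp)
    have h0 := ht a 1 w hw hwp (by rw [e0, e1, e2]; ring)
    have h1 := ht 0 1 w hw hwp (by rw [e0, e1, e2]; ring)
    rw [e1, e2] at h0 h1
    have : c * (t₂ a 1 - t₂ 0 1) = 0 := by linear_combination h0 - h1
    rcases mul_eq_zero.mp this with h | h
    · exact absurd h hc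
    · exact sub_eq_zero.mp h
  -- t₁ (a, 1) = t₂ (a, 1) * a
  have E : ∀ a, t₁ a 1 = t₂ a 1 * a := by
    intro a
    obtain ⟨w, hw, hwp, c, hc, e0, e1, e2⟩ := C.exists_place 0 1 (-a) (by simp)
    have h0 := ht a 1 w hw hwp (by rw [e0, e1, e2]; ring)
    rw [π_eq_zero hπ hw hwp (by rw [e0]; ring), e1, e2] at h0
    have : c * (t₁ a 1 - t₂ a 1 * a) = 0 := by linear_combination h0
    rcases mul_eq_zero.mp this with h | h
    · exact absurd h hc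
    · exact sub_eq_zero.mp h
  have F : ∀ a, t₁ a 0 = t₂ 0 1 * a := fun a => by rw [B, E, D]
  have := ht (- C.ρ v / C.κ₁ v) 0 v hv hvp (by field_simp; ring)
  rw [A, F] at this
  field_simp at this
  linear_combination this

end withπ

end Ctx

/-- **Type of the class functional** of `α`: `π (σ_k v) = k⁻¹ π v`. -/
theorem Ctx.type (C : Ctx p K) {π : Pl K → ZMod p}
    (hπ : IsCF p C.St (fun v => LocPow p v 1 C.α) π) (σ : K ≃ₐ[ℚ] K) (k : ℕ)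
    (hσ : σ C.ζ = C.ζ ^ k) (v : Pl K) : (k : ZMod p) * π (sigmaPl σ v) = π v := by
  by_cases hπ0 : π = 0
  · subst hπ0; simp
  have hp1 : 1 < p := (Fact.out : p.Prime).one_lt
  -- `k` is invertible
  have hk0 : (k : ZMod p) ≠ 0 := by
    intro h
    rw [ZMod.natCast_eq_zero_iff] at h
    obtain ⟨j, rfl⟩ := h
    rw [pow_mul, C.hζ.pow_eq_one, one_pow] at hσ
    have h1 : C.ζ = 1 := by
      have : σ C.ζ = σ 1 := by rw [hσ, map_one]
      exact σ.injective this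
    exact (C.hζ.ne_one hp1) h1
  -- exponent of `σ⁻¹`
  obtain ⟨k', -, hk'⟩ := C.hζ.eq_pow_of_pow_eq_one (ξ := σ⁻¹ C.ζ)
    (by rw [← map_pow, C.hζ.pow_eq_one, map_one])
  have hπ' : IsCF p C.St (fun v => LocPow p v 1 C.α) (fun v => π (sigmaPl σ v)) := by
    refine (hπ.sigma C.hstab σ).mono (fun v hv => ?_)
    have h1 : C.α = σ (σ⁻¹ C.α) := by simp
    rw [h1, locPow_sigmaPl]
    have h2 : σ⁻¹ C.α = (σ⁻¹ C.α / C.α ^ (k' ^ 2)) * C.α ^ (k' ^ 2) := by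
      rw [div_mul_cancel₀]
      exact pow_ne_zero _ C.hα.ne_zero
    rw [h2]
    refine LocPow.mul (locPow_of_isPPow v 1 ?_ (C.hαtype σ⁻¹ k' hk'.symm)) (hv.pow _)
    exact div_ne_zero (by simpa using C.hα.ne_zero) (pow_ne_zero _ C.hα.ne_zero)
  obtain ⟨u, hu⟩ := cf_unique C.hp C.hζ C.hSt C.hgen C.hα C.α_not_ppow hπ hπ' hπ0
  have hu' : ∀ w, π (sigmaPl σ w) = u * π w := fun w => by
    have := congrFun hu w
    simpa using this
  obtain ⟨c, hc⟩ := Ctx.exists_const hπ hπ0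
  obtain ⟨v₀, hv₀, hv₀p, d, hd, e0, e1, -⟩ := C.exists_place 1 1 0 (by simp)
  have hσv₀ : sigmaPl σ v₀ ∉ C.St := by
    intro h
    have := C.hstab σ⁻¹ _ h
    rw [← sigmaPl_mul, inv_mul_cancel, sigmaPl_one] at this
    exact hv₀ this
  have hσv₀p : ¬ Above p (sigmaPl σ v₀) := by rwa [above_sigmaPl]
  -- `rho (σ α) = k² ρ`
  have hρσ : rho (p := p) C.ζ C.St (σ C.α) = ((k ^ 2 : ℕ) : ZMod p) • C.ρ := by
    have hw0 : IsSU0 p C.St (σ C.α / C.α ^ (k ^ 2)) := by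
      rw [div_eq_mul_inv, ← zpow_neg_one]
      exact (C.hα.sigma C.hstab σ).mul ((C.hα.pow _).zpow _)
    have h2 : σ C.α = (σ C.α / C.α ^ (k ^ 2)) * C.α ^ (k ^ 2) := by
      rw [div_mul_cancel₀]
      exact pow_ne_zero _ C.hα.ne_zero
    rw [h2, rho_mul C.hζ hw0 (C.hα.pow _), rho_of_isPPow C.hζ hw0 (C.hαtype σ k hσ),
      rho_pow C.hζ C.hα, zero_add]
    rfl
  have h3 : (k : ZMod p) * C.ρ (sigmaPl σ v₀) = C.ρ v₀ := by
    have h4 := rho_sigma C.hζ C.hstab C.hα σ k hσ v₀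
    rw [hρσ] at h4
    have h5 : (k : ZMod p) * ((k : ZMod p) * C.ρ (sigmaPl σ v₀) - C.ρ v₀) = 0 := by
      have h6 : ((k ^ 2 : ℕ) : ZMod p) * C.ρ (sigmaPl σ v₀) = (k : ZMod p) * C.ρ v₀ := by
        simpa [Ctx.ρ] using h4
      push_cast at h6
      linear_combination h6
    rcases mul_eq_zero.mp h5 with h | h
    · exact absurd h hk0
    · exact sub_eq_zero.mp h
  have hκ : C.κ₁ v₀ ≠ 0 := by rw [e1]; simpa using hd
  have hκσ : C.κ₁ (sigmaPl σ v₀) ≠ 0 := by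
    have : C.κ₁ (sigmaPl σ v₀) = C.κ₁ v₀ := C.hκ₁σ σ v₀
    rwa [this]
  have h7 : π v₀ = c * C.ρ v₀ := hc v₀ hv₀ hv₀p hκ
  have h8 : π (sigmaPl σ v₀) = c * C.ρ (sigmaPl σ v₀) := hc _ hσv₀ hσv₀p hκσ
  have h9 : π v₀ ≠ 0 := Ctx.π_ne_zero hπ hπ0 hv₀ hv₀p (by rw [e0]; simpa using hd)
  have h10 : (k : ZMod p) * u = 1 := by
    have h11 : ((k : ZMod p) * u - 1) * π v₀ = 0 := by
      have := hu' v₀
      rw [h8] at this
      linear_combination (-(k : ZMod p)) * this + c * h3 - h7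
    rcases mul_eq_zero.mp h11 with h | h
    · exact sub_eq_zero.mp h
    · exact absurd h h9
  rw [hu' v, ← mul_assoc, h10, one_mul]

end Fermat.Agent.S14
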